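/-
S40 / row 62, step T2 "V ≅ E[p]" (helper24): **an irreducible representation all of whose elements
satisfy the quadratic relation `X² - tr(ρE g) X + det(ρE g)` of an absolutely irreducible
representation `ρE` is isomorphic to `ρE`.**

Mathlib only, generic.  No algebraic closure, no characters, no Skolem–Noether.

* `exists_common_kernel` : Engel-type lemma for a family of square-zero, pairwise anticommuting
  endomorphisms;
* `exists_equiv_of_quadratic_relation` : the isomorphism statement [BN2];
* `pow_quadratic_relation` : if `F² - tF + d = 0` then `F^j` satisfies `X² - s_j X + d^j` where `s_j`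
  is the Lucas sequence of `(t, d)`; `trace_pow_lucas`: `tr (M^j)` is that Lucas sequence when
  `M² - tM + d = 0` on a 2-dimensional space (this is how the relation is transported from a Frobenius
  element to its powers, `FrobeniusPowerDensity`).
-/
import Mathlib

set_option autoImplicit false

open Module

namespace Fermat.Agent.S40.E1.QuadIso

section Engel

variable {k : Type*} [Field k] {V : Type*} [AddCommGroup V] [Module k V] [FiniteDimensional k V]

/-- Engel-type lemma on an invariant subspace. -/
theorem exists_common_kernel_aux (S : Set (Module.End k V))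
    (hsq : ∀ N ∈ S, N * N = 0) (hanti : ∀ N ∈ S, ∀ M ∈ S, N * M = -(M * N)) :
    ∀ (n : ℕ) (U : Submodule k V), finrank k U = n → U ≠ ⊥ → (∀ N ∈ S, ∀ x ∈ U, N x ∈ U) →
      ∃ v ∈ U, v ≠ 0 ∧ ∀ N ∈ S, N v = 0 := by
  intro n
  induction n using Nat.strong_induction_on with
  | _ n ih =>
    intro U hU hne hinv
    by_cases hall : ∀ N ∈ S, ∀ x ∈ U, N x = 0
    · obtain ⟨v, hvU, hv0⟩ := Submodule.exists_mem_ne_zero_of_ne_bot hne
      exact ⟨v, hvU, hv0, fun N hN => hall N hN v hvU⟩
    · push Not at hall
      obtain ⟨N, hN, x, hxU, hNx⟩ := hall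
      set U' : Submodule k V := U ⊓ LinearMap.ker N with hU'
      have hU'le : U' ≤ U := inf_le_left
      have hNN : ∀ y, N (N y) = 0 := fun y => by
        have := congrArg (fun T : Module.End k V => T y) (hsq N hN)
        simpa using this
      have hU'ne : U' ≠ ⊥ := by
        intro h
        have hmem : N x ∈ U' := ⟨hinv N hN x hxU, by simpa using hNN x⟩
        rw [h, Submodule.mem_bot] at hmem
        exact hNx hmem
      have hU'inv : ∀ M ∈ S, ∀ y ∈ U', M y ∈ U' := by
        intro M hM y hy
        refine ⟨hinv M hM y hy.1, ?_⟩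
        have h1 := congrArg (fun T : Module.End k V => T y) (hanti N hN M hM)
        have hy2 : N y = 0 := by simpa using hy.2
        simp only [Module.End.mul_apply, LinearMap.neg_apply] at h1
        show M y ∈ LinearMap.ker N
        rw [LinearMap.mem_ker, h1, hy2, map_zero, neg_zero]
      have hlt : finrank k U' < n := by
        rw [← hU]
        apply Submodule.finrank_lt_finrank_of_lt
        refine lt_of_le_of_ne hU'le ?_
        intro h
        have : x ∈ U' := h ▸ hxU
        exact hNx (by simpa using this.2)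
      obtain ⟨v, hvU', hv0, hv⟩ := ih _ hlt U' rfl hU'ne hU'inv
      exact ⟨v, hU'le hvU', hv0, hv⟩

/-- **Engel-type lemma**: square-zero, pairwise anticommuting endomorphisms of a nonzero
finite-dimensional space have a common kernel vector. -/
theorem exists_common_kernel [Nontrivial V] (S : Set (Module.End k V))
    (hsq : ∀ N ∈ S, N * N = 0) (hanti : ∀ N ∈ S, ∀ M ∈ S, N * M = -(M * N)) :
    ∃ v : V, v ≠ 0 ∧ ∀ N ∈ S, N v = 0 := by
  obtain ⟨v, -, hv0, hv⟩ := exists_common_kernel_aux S hsq hanti _ ⊤ rfl top_ne_bot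
    (fun _ _ _ _ => Submodule.mem_top)
  exact ⟨v, hv0, hv⟩

end Engel

section Main

variable {k : Type*} [Field k] {G : Type*} [Group G]
  {E : Type*} [AddCommGroup E] [Module k E]
  {V : Type*} [AddCommGroup V] [Module k V] [FiniteDimensional k V]

/-- A representation whose operators span `End E` has no invariant subspace. -/
theorem eq_bot_or_eq_top_of_span_eq_top (ρE : G →* Module.End k E)
    (hspan : Submodule.span k (Set.range ρE) = ⊤) (W : Submodule k E)
    (hW : ∀ g, ∀ x ∈ W, ρE g x ∈ W) : W = ⊥ ∨ W = ⊤ := by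
  have hall : ∀ X : Module.End k E, ∀ x ∈ W, X x ∈ W := by
    intro X
    have hX : X ∈ Submodule.span k (Set.range ρE) := by rw [hspan]; exact Submodule.mem_top
    induction hX using Submodule.span_induction with
    | mem X hX =>
      obtain ⟨g, rfl⟩ := hX
      exact hW g
    | zero => intro x _; simp
    | add X Y _ _ hX hY => intro x hx; simpa using W.add_mem (hX x hx) (hY x hx)
    | smul c X _ hX => intro x hx; simpa using W.smul_mem c (hX x hx)
  by_cases hbot : W = ⊥
  · exact Or.inl hbot
  · right
    obtain ⟨w, hwW, hw0⟩ := Submodule.exists_mem_ne_zero_of_ne_bot hbot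
    -- a functional with value `1` at `w`
    have hinj : LinearMap.ker (LinearMap.toSpanSingleton k E w) = ⊥ := by
      rw [LinearMap.ker_eq_bot]
      intro c d hcd
      simp only [LinearMap.toSpanSingleton_apply] at hcd
      exact smul_left_injective k hw0 hcd
    obtain ⟨ξ, hξ⟩ := (LinearMap.toSpanSingleton k E w).exists_leftInverse_of_injective hinj
    have hξw : ξ w = 1 := by
      have := congrArg (fun f : k →ₗ[k] k => f 1) hξ
      simpa using this
    rw [eq_top_iff]
    intro u _
    have := hall (ξ.smulRight u) w hwW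
    simpa [hξw] using this

/-- **[BN2]** An irreducible representation `V` all of whose elements satisfy the quadratic relation
`X² - tr(ρE g) X + det(ρE g) = 0` attached to a representation `ρE` whose operators span `End E`
(absolute irreducibility, Burnside form) is isomorphic to `E`. -/
theorem exists_equiv_of_quadratic_relation [FiniteDimensional k E] [Nontrivial E] [Nontrivial V]
    (h2 : (2 : k) ≠ 0)
    (ρE : G →* Module.End k E) (ρV : G →* Module.End k V)
    (hspan : Submodule.span k (Set.range ρE) = ⊤)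
    (hirrV : ∀ W : Submodule k V, (∀ g, ∀ x ∈ W, ρV g x ∈ W) → W = ⊥ ∨ W = ⊤)
    (hrel : ∀ g, ρV g * ρV g - LinearMap.trace k E (ρE g) • ρV g
      + LinearMap.det (ρE g) • (1 : Module.End k V) = 0) :
    ∃ φ : E ≃ₗ[k] V, ∀ g, φ.toLinearMap ∘ₗ ρE g = ρV g ∘ₗ φ.toLinearMap := by
  classical
  set πE : MonoidAlgebra k G →ₐ[k] Module.End k E := MonoidAlgebra.lift k (Module.End k E) G ρE
    with hπE
  set πV : MonoidAlgebra k G →ₐ[k] Module.End k V := MonoidAlgebra.lift k (Module.End k V) G ρV
    with hπV
  have hπE_of : ∀ g, πE (MonoidAlgebra.of k G g) = ρE g := fun g => MonoidAlgebra.lift_of _ _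
  have hπV_of : ∀ g, πV (MonoidAlgebra.of k G g) = ρV g := fun g => MonoidAlgebra.lift_of _ _
  -- the trace functional and the "conjugate" map `Φ = τ • 1 - πV`
  set τ : MonoidAlgebra k G →ₗ[k] k := (LinearMap.trace k E) ∘ₗ πE.toLinearMap with hτ
  have hτ_apply : ∀ a, τ a = LinearMap.trace k E (πE a) := fun a => rfl
  set Φ : MonoidAlgebra k G →ₗ[k] Module.End k V :=
    τ.smulRight (1 : Module.End k V) - πV.toLinearMap with hΦ
  have hΦ_apply : ∀ a, Φ a = τ a • (1 : Module.End k V) - πV a := fun a => rfl
  have hτ_zero : ∀ a, πE a = 0 → τ a = 0 := fun a ha => by rw [hτ_apply, ha, map_zero]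
  -- on group elements
  have hρinv : ∀ g, ρV g * ρV g⁻¹ = 1 := fun g => by rw [← map_mul, mul_inv_cancel, map_one]
  have hΦg : ∀ g, Φ (MonoidAlgebra.of k G g) * ρV g = LinearMap.det (ρE g) • (1 : Module.End k V) := by
    intro g
    rw [hΦ_apply, hτ_apply, hπE_of, hπV_of, sub_mul, smul_mul_assoc, one_mul]
    have := hrel g
    rw [sub_add_eq_add_sub, sub_eq_zero] at this
    rw [← this]
    abel
  have hΦg' : ∀ g, Φ (MonoidAlgebra.of k G g) = LinearMap.det (ρE g) • ρV g⁻¹ := by
    intro g
    calc Φ (MonoidAlgebra.of k G g) = Φ (MonoidAlgebra.of k G g) * (ρV g * ρV g⁻¹) := by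
          rw [hρinv, mul_one]
      _ = (Φ (MonoidAlgebra.of k G g) * ρV g) * ρV g⁻¹ := by rw [mul_assoc]
      _ = LinearMap.det (ρE g) • ρV g⁻¹ := by rw [hΦg, smul_mul_assoc, one_mul]
  have hanti : ∀ a b, Φ (a * b) = Φ b * Φ a := by
    intro a b
    induction a using MonoidAlgebra.induction_on with
    | of g =>
      induction b using MonoidAlgebra.induction_on with
      | of h =>
        rw [← map_mul, hΦg', hΦg', hΦg', map_mul, map_mul, mul_inv_rev, map_mul,
          smul_mul_smul_comm, mul_comm (LinearMap.det (ρE h))]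
      | add x y hx hy => rw [mul_add, map_add, map_add, add_mul, hx, hy]
      | smul c x hx => rw [mul_smul_comm, map_smul, map_smul, smul_mul_assoc, hx]
    | add x y hx hy => rw [add_mul, map_add, map_add, mul_add, hx, hy]
    | smul c x hx => rw [smul_mul_assoc, map_smul, map_smul, mul_smul_comm, hx]
  -- the key identity on the kernel of `πE`
  have hstar : ∀ a, πE a = 0 → ∀ b, πV a * πV b = (τ b • (1 : Module.End k V) - πV b) * πV a := by
    intro a ha b
    have hab : πE (a * b) = 0 := by rw [map_mul, ha, zero_mul]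
    have h1 : Φ (a * b) = -(πV a * πV b) := by
      rw [hΦ_apply, hτ_zero _ hab, zero_smul, zero_sub, map_mul]
    have h2' : Φ a = -πV a := by rw [hΦ_apply, hτ_zero _ ha, zero_smul, zero_sub]
    have h3 := hanti a b
    rw [h1, h2', hΦ_apply, mul_neg, neg_inj] at h3
    exact h3
  -- the image of the kernel of `πE`
  set S : Set (Module.End k V) := {N | ∃ a, πE a = 0 ∧ πV a = N} with hS
  have hsq : ∀ N ∈ S, N * N = 0 := by
    rintro N ⟨a, ha, rfl⟩
    have h := hstar a ha a
    rw [hτ_zero _ ha, zero_smul, zero_sub, neg_mul] at h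
    have h' : (2 : k) • (πV a * πV a) = 0 := by
      rw [two_smul]
      nth_rewrite 1 [h]
      exact neg_add_cancel _
    exact (smul_eq_zero.mp h').resolve_left h2
  have hantiS : ∀ N ∈ S, ∀ M ∈ S, N * M = -(M * N) := by
    rintro N ⟨a, ha, rfl⟩ M ⟨b, hb, rfl⟩
    have h := hstar a ha b
    rw [hτ_zero _ hb, zero_smul, zero_sub, neg_mul] at h
    exact h
  obtain ⟨v, hv0, hv⟩ := exists_common_kernel S hsq hantiS
  -- the common kernel is invariant, hence everything
  let W : Submodule k V :=
    { carrier := {w | ∀ N ∈ S, N w = 0}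
      add_mem' := fun {x y} hx hy N hN => by rw [map_add, hx N hN, hy N hN, add_zero]
      zero_mem' := fun N _ => map_zero N
      smul_mem' := fun c x hx N hN => by rw [map_smul, hx N hN, smul_zero] }
  have hWinv : ∀ g, ∀ x ∈ W, ρV g x ∈ W := by
    rintro g x hx N ⟨a, ha, rfl⟩
    have hmem : πV (a * MonoidAlgebra.of k G g) ∈ S :=
      ⟨a * MonoidAlgebra.of k G g, by rw [map_mul, ha, zero_mul], rfl⟩
    have := hx _ hmem
    rwa [map_mul, hπV_of, Module.End.mul_apply] at this
  have hWtop : W = ⊤ := by
    rcases hirrV W hWinv with h | h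
    · exfalso
      have : v ∈ W := hv
      rw [h, Submodule.mem_bot] at this
      exact hv0 this
    · exact h
  have hker : ∀ a, πE a = 0 → πV a = 0 := by
    intro a ha
    ext w
    have hw : w ∈ W := by rw [hWtop]; exact Submodule.mem_top
    exact hw (πV a) ⟨a, ha, rfl⟩
  -- `πE` is onto
  have hsurj : LinearMap.range πE.toLinearMap = ⊤ := by
    rw [eq_top_iff, ← hspan, Submodule.span_le]
    rintro _ ⟨g, rfl⟩
    exact ⟨MonoidAlgebra.of k G g, hπE_of g⟩
  obtain ⟨s, hs⟩ := πE.toLinearMap.exists_rightInverse_of_surjective hsurj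
  have hs_apply : ∀ X, πE (s X) = X := fun X => by
    have := congrArg (fun f : Module.End k E →ₗ[k] Module.End k E => f X) hs
    simpa using this
  -- the induced ring homomorphism `ψ : End E → End V`
  set ψ : Module.End k E →ₗ[k] Module.End k V := πV.toLinearMap ∘ₗ s with hψ
  have hψ_apply : ∀ X, ψ X = πV (s X) := fun X => rfl
  have hψπ : ∀ a, ψ (πE a) = πV a := by
    intro a
    have h0 : πE (s (πE a) - a) = 0 := by rw [map_sub, hs_apply, sub_self]
    have := hker _ h0
    rw [map_sub, sub_eq_zero] at this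
    rw [hψ_apply, this]
  have hψmul : ∀ X Y, ψ (X * Y) = ψ X * ψ Y := by
    intro X Y
    have h : X * Y = πE (s X * s Y) := by rw [map_mul, hs_apply, hs_apply]
    rw [h, hψπ, map_mul, hψ_apply, hψ_apply]
  have hψone : ψ 1 = 1 := by
    have h : (1 : Module.End k E) = πE 1 := by rw [map_one]
    rw [h, hψπ, map_one]
  have hψρ : ∀ g, ψ (ρE g) = ρV g := fun g => by rw [← hπE_of, hψπ, hπV_of]
  -- a basis of `E`, a vector `u₀` and a functional `ξ₀` with `ξ₀ u₀ = 1`
  set b := Module.finBasis k E with hb
  have hpos : 0 < finrank k E := Module.finrank_pos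
  set i₀ : Fin (finrank k E) := ⟨0, hpos⟩ with hi₀
  set u₀ : E := b i₀ with hu₀
  set ξ₀ : E →ₗ[k] k := b.coord i₀ with hξ₀
  have hξu : ξ₀ u₀ = 1 := by simp [hξ₀, hu₀]
  set P₀ : Module.End k E := ξ₀.smulRight u₀ with hP₀
  have hXR : ∀ (X : Module.End k E) (u : E), X * ξ₀.smulRight u = ξ₀.smulRight (X u) := by
    intro X u
    ext x
    simp [LinearMap.smulRight_apply]
  have hRP : ∀ u : E, (ξ₀.smulRight u : Module.End k E) * P₀ = ξ₀.smulRight u := by
    intro u
    ext x
    simp [hP₀, LinearMap.smulRight_apply, hξu]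
  have hψP_ne : ψ P₀ ≠ 0 := by
    intro h0
    have hone : (1 : Module.End k E) =
        ∑ i, (ξ₀.smulRight (b i) : Module.End k E) * P₀ * ((b.coord i).smulRight u₀) := by
      ext x
      simp only [Module.End.one_apply, LinearMap.sum_apply, Module.End.mul_apply,
        LinearMap.smulRight_apply, hP₀, map_smul, hξu, Module.Basis.coord_apply, one_smul]
      exact (b.sum_repr x).symm
    have h1 : ψ 1 = 0 := by
      rw [hone, map_sum]
      refine Finset.sum_eq_zero (fun i _ => ?_)
      rw [hψmul, hψmul, h0, mul_zero, zero_mul]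
    rw [hψone] at h1
    exact one_ne_zero h1
  obtain ⟨v₁, hv₁⟩ : ∃ v₁, ψ P₀ v₁ ≠ 0 := by
    by_contra hcon
    push Not at hcon
    exact hψP_ne (LinearMap.ext hcon)
  set v₀ : V := ψ P₀ v₁ with hv₀
  have hPv₀ : ψ P₀ v₀ = v₀ := by
    rw [hv₀, ← Module.End.mul_apply, ← hψmul, hRP u₀]
  -- the intertwiner
  let φ : E →ₗ[k] V :=
    { toFun := fun u => ψ (ξ₀.smulRight u) v₀
      map_add' := fun u u' => by
        have : (ξ₀.smulRight (u + u') : Module.End k E) = ξ₀.smulRight u + ξ₀.smulRight u' := by
          ext x; simp [LinearMap.smulRight_apply]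
        rw [this, map_add, LinearMap.add_apply]
      map_smul' := fun c u => by
        have : (ξ₀.smulRight (c • u) : Module.End k E) = c • ξ₀.smulRight u := by
          ext x
          simp only [LinearMap.smulRight_apply, LinearMap.smul_apply]
          rw [smul_comm]
        rw [this, map_smul, LinearMap.smul_apply, RingHom.id_apply] }
  have hφ_apply : ∀ u, φ u = ψ (ξ₀.smulRight u) v₀ := fun u => rfl
  have hφeq : ∀ g u, φ (ρE g u) = ρV g (φ u) := by
    intro g u
    rw [hφ_apply, ← hXR, hψmul, hψρ, Module.End.mul_apply, hφ_apply]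
  have hφu₀ : φ u₀ = v₀ := by rw [hφ_apply]; exact hPv₀
  have hv₀ne : v₀ ≠ 0 := hv₁
  have hkerφ : LinearMap.ker φ = ⊥ := by
    rcases eq_bot_or_eq_top_of_span_eq_top ρE hspan (LinearMap.ker φ) (fun g x hx => by
      rw [LinearMap.mem_ker] at hx ⊢
      rw [hφeq, hx, map_zero]) with h | h
    · exact h
    · exfalso
      have : u₀ ∈ LinearMap.ker φ := by rw [h]; exact Submodule.mem_top
      rw [LinearMap.mem_ker, hφu₀] at this
      exact hv₀ne this
  have hrangeφ : LinearMap.range φ = ⊤ := by
    rcases hirrV (LinearMap.range φ) (fun g x hx => by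
      obtain ⟨u, rfl⟩ := hx
      exact ⟨ρE g u, hφeq g u⟩) with h | h
    · exfalso
      have : v₀ ∈ LinearMap.range φ := ⟨u₀, hφu₀⟩
      rw [h, Submodule.mem_bot] at this
      exact hv₀ne this
    · exact h
  refine ⟨LinearEquiv.ofBijective φ ⟨LinearMap.ker_eq_bot.mp hkerφ, LinearMap.range_eq_top.mp hrangeφ⟩,
    fun g => ?_⟩
  ext u
  exact hφeq g u

end Main

section Powers

variable {k : Type*} [Field k]

/-- The Lucas sequence `s₀ = 2`, `s₁ = t`, `s_{j+2} = t s_{j+1} - d s_j` (power sums of the roots of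
`X² - tX + d`). -/
def lucas (t d : k) : ℕ → k
  | 0 => 2
  | 1 => t
  | (j + 2) => t * lucas t d (j + 1) - d * lucas t d j

@[simp] theorem lucas_zero (t d : k) : lucas t d 0 = 2 := rfl
@[simp] theorem lucas_one (t d : k) : lucas t d 1 = t := rfl
theorem lucas_succ_succ (t d : k) (j : ℕ) :
    lucas t d (j + 2) = t * lucas t d (j + 1) - d * lucas t d j := rfl

variable {R : Type*} [Ring R] [Algebra k R]

/-- If `F² - tF + d = 0` then `F^j` is a root of `X² - s_j X + d^j`. -/
theorem pow_quadratic_relation (F : R) (t d : k) (hF : F * F - t • F + d • (1 : R) = 0) (j : ℕ) :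
    F ^ j * F ^ j - lucas t d j • F ^ j + d ^ j • (1 : R) = 0 := by
  set G : R := t • (1 : R) - F with hG
  have hFF : F * F = t • F - d • (1 : R) := by
    rw [← sub_eq_zero, ← hF]; abel
  have hcomm : Commute F G := ((Commute.one_right F).smul_right t).sub_right (Commute.refl F)
  have hFG : F * G = d • (1 : R) := by
    rw [hG, mul_sub, mul_smul_comm, mul_one, hFF]; abel
  have hGF : G * F = d • (1 : R) := by rw [← hcomm.eq, hFG]
  have hsum : F + G = t • (1 : R) := by rw [hG]; abel
  have hL : ∀ j, F ^ j + G ^ j = lucas t d j • (1 : R) ∧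
      F ^ (j + 1) + G ^ (j + 1) = lucas t d (j + 1) • (1 : R) := by
    intro j
    induction j with
    | zero =>
      refine ⟨?_, ?_⟩
      · rw [pow_zero, pow_zero, lucas_zero, two_smul]
      · rw [zero_add, pow_one, pow_one, lucas_one, hsum]
    | succ j ih =>
      refine ⟨ih.2, ?_⟩
      have e1 : F * G ^ (j + 1) = d • G ^ j := by
        rw [pow_succ', ← mul_assoc, hFG, smul_mul_assoc, one_mul]
      have e2 : G * F ^ (j + 1) = d • F ^ j := by
        rw [pow_succ', ← mul_assoc, hGF, smul_mul_assoc, one_mul]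
      have e3 : F ^ (j + 1 + 1) + G ^ (j + 1 + 1)
          = (F + G) * (F ^ (j + 1) + G ^ (j + 1)) - d • (F ^ j + G ^ j) := by
        rw [add_mul, mul_add, mul_add, e1, e2, pow_succ' F (j + 1), pow_succ' G (j + 1), smul_add]
        abel
      rw [e3, hsum, ih.1, ih.2, lucas_succ_succ, smul_mul_assoc, one_mul, smul_smul, smul_smul,
        ← sub_smul]
  obtain ⟨hj, -⟩ := hL j
  have hprod : F ^ j * G ^ j = d ^ j • (1 : R) := by
    rw [← hcomm.mul_pow, hFG, smul_pow, one_pow]
  have hcommj : Commute (F ^ j) (G ^ j) := hcomm.pow_pow j j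
  have hl : lucas t d j • F ^ j = (F ^ j + G ^ j) * F ^ j := by
    rw [hj, smul_mul_assoc, one_mul]
  rw [hl, add_mul, ← hprod, ← hcommj.eq]
  abel

variable {E : Type*} [AddCommGroup E] [Module k E] [FiniteDimensional k E]

/-- Cayley–Hamilton in dimension `2`. -/
theorem cayley_hamilton_two (hE : finrank k E = 2) (M : Module.End k E) :
    M * M - LinearMap.trace k E M • M + LinearMap.det M • (1 : Module.End k E) = 0 := by
  classical
  let b : Module.Basis (Fin 2) k E := Module.finBasisOfFinrankEq k E hE
  have h1 := LinearMap.aeval_self_charpoly M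
  rw [← LinearMap.charpoly_toMatrix M b, Matrix.charpoly_fin_two,
    ← LinearMap.trace_eq_matrix_trace k b M, LinearMap.det_toMatrix b M] at h1
  simp only [map_add, map_sub, map_mul, map_pow, Polynomial.aeval_X, Polynomial.aeval_C] at h1
  rw [pow_two, Module.algebraMap_end_eq_smul_id, Module.algebraMap_end_eq_smul_id] at h1
  rw [← h1]
  have e1 : (LinearMap.trace k E) M • (LinearMap.id : Module.End k E) * M
      = (LinearMap.trace k E) M • M := by
    ext x
    simp
  have e2 : (LinearMap.id : Module.End k E) = 1 := rfl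
  rw [e1, e2]

/-- On a `2`-dimensional space, `tr (M^j)` is the Lucas sequence of `(tr M, det M)`. -/
theorem trace_pow_eq_lucas (hE : finrank k E = 2) (M : Module.End k E) (j : ℕ) :
    LinearMap.trace k E (M ^ j) = lucas (LinearMap.trace k E M) (LinearMap.det M) j := by
  set t := LinearMap.trace k E M with ht
  set d := LinearMap.det M with hd
  have hMM : M * M = t • M - d • (1 : Module.End k E) := by
    have := cayley_hamilton_two hE M
    rw [← sub_eq_zero, ← this]; abel
  have hL : ∀ j, LinearMap.trace k E (M ^ j) = lucas t d j ∧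
      LinearMap.trace k E (M ^ (j + 1)) = lucas t d (j + 1) := by
    intro j
    induction j with
    | zero =>
      refine ⟨?_, ?_⟩
      · rw [pow_zero, LinearMap.trace_one, hE, lucas_zero]; norm_num
      · rw [zero_add, pow_one, lucas_one]
    | succ j ih =>
      refine ⟨ih.2, ?_⟩
      have e : M ^ (j + 1 + 1) = t • M ^ (j + 1) - d • M ^ j := by
        rw [pow_succ' M (j + 1), pow_succ' M j, ← mul_assoc, hMM, sub_mul, smul_mul_assoc,
          smul_mul_assoc, one_mul, ← pow_succ']
      rw [e, map_sub, map_smul, map_smul, ih.1, ih.2, lucas_succ_succ, smul_eq_mul, smul_eq_mul]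
  exact (hL j).1

/-- **Transport to powers**: if `F` satisfies the characteristic relation of a `2`-dimensional
endomorphism `M`, then `F^j` satisfies that of `M^j`. -/
theorem quadratic_relation_pow (hE : finrank k E = 2) (M : Module.End k E) (F : R)
    (hF : F * F - LinearMap.trace k E M • F + LinearMap.det M • (1 : R) = 0) (j : ℕ) :
    F ^ j * F ^ j - LinearMap.trace k E (M ^ j) • F ^ j + LinearMap.det (M ^ j) • (1 : R) = 0 := by
  rw [trace_pow_eq_lucas hE, map_pow]
  exact pow_quadratic_relation F _ _ hF j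

end Powers

end Fermat.Agent.S40.E1.QuadIso
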